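/-
T1G (helper6): roots of unity of order prime to the residue characteristic in a discretely valued
field: `ζ ∈ O^×`, `1 - ζ^a ∈ O^×` (`a ≢ 0`), and the reduction `ζ̄` is again a primitive `M`-th root
of unity.
-/
import Fermat.Agent.Lib.T1G.Model.Lead
import Fermat.Agent.Lib.T1.GoodRed.Gauss

set_option autoImplicit false
set_option linter.unusedSectionVars false
set_option linter.style.haveILetI false

open HahnSeries ModularCurve Fermat.Agent.T1

noncomputable section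

namespace Fermat.Agent.T1G

variable {L : Type*} [Field L] (O : ValuationSubring L)
  {k : Type*} [Field k] (π : ↥O →+* k)
  (M : ℕ) [NeZero M] (ζ : Lˣ)

theorem tg_mem_of_pow_eq_one {x : L} {n : ℕ} (hn : n ≠ 0) (hx : x ^ n = 1) : x ∈ O := by
  rw [← O.valuation_le_one_iff]
  have h1 : O.valuation x ^ n = 1 := by rw [← map_pow, hx, map_one]
  by_contra hlt
  push Not at hlt
  have := one_lt_pow₀ hlt hn
  rw [h1] at this
  exact lt_irrefl _ this

variable {M ζ}

/-- `ζ` as a unit of `O` -/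
def tgZetaO (hζ : ζ ^ M = 1) : (↥O)ˣ where
  val := ⟨(ζ : L), tg_mem_of_pow_eq_one O (NeZero.ne M) (by
    rw [← Units.val_pow_eq_pow_val, hζ, Units.val_one])⟩
  inv := ⟨((ζ⁻¹ : Lˣ) : L), tg_mem_of_pow_eq_one O (NeZero.ne M) (by
    rw [← Units.val_pow_eq_pow_val, inv_pow, hζ, inv_one, Units.val_one])⟩
  val_inv := by
    apply Subtype.ext
    show (ζ : L) * ((ζ⁻¹ : Lˣ) : L) = 1
    simp
  inv_val := by
    apply Subtype.ext
    show ((ζ⁻¹ : Lˣ) : L) * (ζ : L) = 1
    simp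

theorem tgZetaO_map (hζ : ζ ^ M = 1) :
    Units.map (O.subtype : ↥O →* L) (tgZetaO O hζ) = ζ := by
  apply Units.ext
  rfl

theorem tgZetaO_pow (hζ : ζ ^ M = 1) : tgZetaO O hζ ^ M = 1 := by
  apply Units.ext
  apply Subtype.ext
  rw [Units.val_pow_eq_pow_val, Units.val_one]
  show ((tgZetaO O hζ : (↥O)ˣ) : ↥O).1 ^ M = 1
  show (ζ : L) ^ M = 1
  rw [← Units.val_pow_eq_pow_val, hζ, Units.val_one]

theorem tgZetaO_isPrimitiveRoot (hζ : IsPrimitiveRoot ζ M) :
    IsPrimitiveRoot (tgZetaO O hζ.pow_eq_one) M := by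
  have h := tgZetaO_map O hζ.pow_eq_one
  have hinj : Function.Injective (Units.map (O.subtype : ↥O →* L)) :=
    Units.map_injective (Subtype.val_injective)
  refine IsPrimitiveRoot.of_map_of_injective (f := Units.map (O.subtype : ↥O →* L)) ?_ hinj
  rw [h]
  exact hζ

variable [IsDiscreteValuationRing ↥O] (hπ : Function.Surjective π)

/-- a root of unity `u ≠ 1` of order prime to the residue characteristic does not reduce to `1` -/
theorem tg_map_ne_one_of_pow_eq_one (hM : (M : k) ≠ 0) {u : ↥O} (hu : u ^ M = 1) (hu1 : u ≠ 1) :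
    π u ≠ 1 := by
  intro h1
  have h2 := geom_sum_mul u M
  rw [hu, sub_self] at h2
  have h3 : ∑ i ∈ Finset.range M, u ^ i = 0 :=
    (mul_eq_zero.mp h2).resolve_right (sub_ne_zero.mpr hu1)
  have h4 := congrArg π h3
  rw [map_sum, map_zero] at h4
  simp only [map_pow, h1, one_pow, Finset.sum_const, Finset.card_range, nsmul_eq_mul, mul_one]
    at h4
  exact hM h4

include π hπ in
/-- `1 - ζ^a` is a unit of `O` for `a ≢ 0` -/
theorem tg_isUnit_one_sub (hζ : IsPrimitiveRoot ζ M) (hM : (M : k) ≠ 0) {a : ZMod M}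
    (ha : a ≠ 0) :
    IsUnit (1 - ((tgZ ↥O M (tgZetaO O hζ.pow_eq_one) a : (↥O)ˣ) : ↥O)) := by
  obtain ⟨ϖ, hϖ⟩ := IsDiscreteValuationRing.exists_irreducible ↥O
  set u : ↥O := ((tgZ ↥O M (tgZetaO O hζ.pow_eq_one) a : (↥O)ˣ) : ↥O) with hu
  have huM : u ^ M = 1 := by
    rw [hu, ← Units.val_pow_eq_pow_val, tgZ, ← pow_mul, mul_comm, pow_mul, tgZetaO_pow,
      one_pow, Units.val_one]
  have hu1 : u ≠ 1 := by
    intro h
    have h1 : tgZ ↥O M (tgZetaO O hζ.pow_eq_one) a = 1 := Units.ext h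
    rw [tgZ, (tgZetaO_isPrimitiveRoot O hζ).pow_eq_one_iff_dvd] at h1
    have := Nat.eq_zero_of_dvd_of_lt h1 (ZMod.val_lt a)
    exact ha ((ZMod.val_eq_zero a).mp this)
  have h1 := tg_map_ne_one_of_pow_eq_one O π hM huM hu1
  have h2 : π (1 - u) ≠ 0 := by
    rw [map_sub, map_one]
    exact sub_ne_zero.mpr h1.symm
  by_contra hnu
  apply h2
  rw [ta_pi_eq_zero_iff hπ hϖ]
  have h3 : (1 - u) ∈ IsLocalRing.maximalIdeal ↥O := (IsLocalRing.mem_maximalIdeal _).mpr hnu
  rw [(IsDiscreteValuationRing.irreducible_iff_uniformizer _).mp hϖ,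
    Ideal.mem_span_singleton] at h3
  exact h3

/-- the reduction of `ζ` -/
def tgZetaBar (hζ : ζ ^ M = 1) : kˣ := Units.map (π : ↥O →* k) (tgZetaO O hζ)

theorem tgZetaBar_isPrimitiveRoot (hζ : IsPrimitiveRoot ζ M) (hM : (M : k) ≠ 0) :
    IsPrimitiveRoot (tgZetaBar O π hζ.pow_eq_one) M := by
  rw [IsPrimitiveRoot.iff (Nat.pos_of_ne_zero (NeZero.ne M))]
  constructor
  · rw [tgZetaBar, ← map_pow, tgZetaO_pow, map_one]
  · intro d hd0 hdM h1
    have hu : ((tgZetaO O hζ.pow_eq_one) ^ d : (↥O)ˣ) ≠ 1 := by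
      intro h
      have := (tgZetaO_isPrimitiveRoot O hζ).pow_eq_one_iff_dvd d |>.mp h
      exact absurd (Nat.le_of_dvd hd0 this) (not_le.mpr hdM)
    have h2 := tg_map_ne_one_of_pow_eq_one O π hM
      (u := (((tgZetaO O hζ.pow_eq_one) ^ d : (↥O)ˣ) : ↥O))
      (by rw [← Units.val_pow_eq_pow_val, ← pow_mul, mul_comm, pow_mul, tgZetaO_pow, one_pow,
        Units.val_one])
      (fun h => hu (Units.ext h))
    apply h2
    have h3 := congrArg (fun x : kˣ => (x : k)) h1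
    simp only [tgZetaBar, ← map_pow, Units.coe_map, Units.val_one] at h3
    exact h3

end Fermat.Agent.T1G
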