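/-
T1G (helper6): the Gauss valuation of the full level field `tgFull L M ζ ⊆ L((t))` over a discretely
valued field `(L, O, π : O → k)` of residue characteristic prime to `M`: the generators have
coefficients in `O` and reduce to the generators of `tgFull k M ζ̄`.
-/
import Fermat.Agent.Lib.T1G.Igusa.Roots
import Fermat.Agent.Lib.T1G.GoodRed.AbsOf

set_option autoImplicit false
set_option linter.unusedSectionVars false
set_option linter.style.haveILetI false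

open HahnSeries ModularCurve Fermat.Agent.T1 Fermat.Agent.Igusa

noncomputable section

namespace Fermat.Agent.T1G

variable {L : Type*} [Field L] (O : ValuationSubring L)
  {k : Type*} [Field k] (π : ↥O →+* k)
  [IsDiscreteValuationRing ↥O] (hπ : Function.Surjective π)
  {M : ℕ} [NeZero M] {ζ : Lˣ} (hζ : IsPrimitiveRoot ζ M) (hM : (M : k) ≠ 0)

/-! ### The generators have coefficients in `O` -/

include π hπ hM in
theorem tg_unit_hyp {v : ZMod M × ZMod M} (hv : v ≠ 0) :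
    v.1 = 0 → IsUnit (1 - ((tgZ ↥O M (tgZetaO O hζ.pow_eq_one) v.2 : (↥O)ˣ) : ↥O)) := by
  intro h1
  apply tg_isUnit_one_sub O π hπ hζ hM
  intro h2
  exact hv (Prod.ext h1 h2)

include π hπ hM in
theorem tgNu_eq_taInc {v w : ZMod M × ZMod M} (hv : v ≠ 0) (hw : w ≠ 0) :
    tgNu L M ζ v w = taInc O (tgNu ↥O M (tgZetaO O hζ.pow_eq_one) v w) := by
  have h := coeffMap_tgNu (O.subtype) M (tgZetaO O hζ.pow_eq_one) v w
    (tg_unit_hyp O π hπ hζ hM hv) (tg_unit_hyp O π hπ hζ hM hw)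
  rw [tgZetaO_map] at h
  exact h.symm

include hπ hM in
theorem taRed_tgNu {v w : ZMod M × ZMod M} (hv : v ≠ 0) (hw : w ≠ 0) :
    taRed π (tgNu ↥O M (tgZetaO O hζ.pow_eq_one) v w) =
      tgNu k M (tgZetaBar O π hζ.pow_eq_one) v w :=
  coeffMap_tgNu π M (tgZetaO O hζ.pow_eq_one) v w
    (tg_unit_hyp O π hπ hζ hM hv) (tg_unit_hyp O π hπ hζ hM hw)

theorem tgJc_eq_taInc (c e : ℕ) :
    tgJc L ζ c e = taInc O (tgJc ↥O (tgZetaO O hζ.pow_eq_one) c e) := by
  have h := coeffMap_tgJc (O.subtype) (tgZetaO O hζ.pow_eq_one) c e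
  rw [tgZetaO_map] at h
  exact h.symm

theorem taRed_tgJc (c e : ℕ) :
    taRed π (tgJc ↥O (tgZetaO O hζ.pow_eq_one) c e) =
      tgJc k (tgZetaBar O π hζ.pow_eq_one) c e :=
  coeffMap_tgJc π (tgZetaO O hζ.pow_eq_one) c e

include π hπ hζ hM in
/-- the full level field consists of fractions of series with coefficients in `O` -/
theorem tg_frac_of_mem_full : ∀ f ∈ tgFull L M ζ, TaFrac O f := by
  have h : tgFull L M ζ ≤ taFracField O := by
    rw [tgFull, IntermediateField.adjoin_le_iff]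
    rintro x (⟨a', d', b', -, -, rfl⟩ | ⟨v, w, hv, hw, rfl⟩)
    · rw [tgJc_eq_taInc O hζ]
      exact taFrac_taInc O _
    · rw [tgNu_eq_taInc O π hπ hζ hM hv hw]
      exact taFrac_taInc O _
  exact fun f hf => h hf

/-- **the Gauss valuation ring of the full level field** -/
def tgFullV : ValuationSubring ↥(tgFull L M ζ) :=
  taVal O π hπ (tgFull L M ζ) (tg_frac_of_mem_full O π hπ hζ hM)

/-- **its residue map** -/
def tgFullRes : ↥(tgFullV O π hπ hζ hM) →+* LaurentSeries k :=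
  taRes O π hπ (tgFull L M ζ) (tg_frac_of_mem_full O π hπ hζ hM)

theorem mem_tgFullV_iff (f : ↥(tgFull L M ζ)) :
    f ∈ tgFullV O π hπ hζ hM ↔ TaGauss O π (f : LaurentSeries L) := Iff.rfl

theorem tgFullRes_of_eq_taInc {f : ↥(tgFullV O π hπ hζ hM)} {s : LaurentSeries ↥O}
    (h : ((f : ↥(tgFull L M ζ)) : LaurentSeries L) = taInc O s) :
    tgFullRes O π hπ hζ hM f = taRed π s :=
  taRes_of_eq_taInc O π hπ _ _ h

theorem tgFullRes_eq (f : ↥(tgFullV O π hπ hζ hM)) :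
    tgFullRes O π hπ hζ hM f = taRhoFun O π ((f : ↥(tgFull L M ζ)) : LaurentSeries L) := rfl

theorem tgNuE_mem_tgFullV {v w : ZMod M × ZMod M} (hv : v ≠ 0) (hw : w ≠ 0) :
    tgNuE L M ζ hv hw ∈ tgFullV O π hπ hζ hM :=
  mem_taVal_of_eq_taInc O π hπ _ _ (tgNu_eq_taInc O π hπ hζ hM hv hw)

theorem tgFullRes_tgNuE {v w : ZMod M × ZMod M} (hv : v ≠ 0) (hw : w ≠ 0) :
    tgFullRes O π hπ hζ hM ⟨tgNuE L M ζ hv hw, tgNuE_mem_tgFullV O π hπ hζ hM hv hw⟩ =
      tgNu k M (tgZetaBar O π hζ.pow_eq_one) v w := by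
  rw [tgFullRes_of_eq_taInc O π hπ hζ hM (tgNu_eq_taInc O π hπ hζ hM hv hw),
    taRed_tgNu O π hπ hζ hM hv hw]

theorem mem_tgFullV_of_mem_tgJSet {x : ↥(tgFull L M ζ)}
    (hx : (x : LaurentSeries L) ∈ tgJSet L M ζ) : x ∈ tgFullV O π hπ hζ hM := by
  obtain ⟨a', d', b', -, -, e⟩ := hx
  exact mem_taVal_of_eq_taInc O π hπ _ _ (e.trans (tgJc_eq_taInc O hζ _ _))

theorem tgFullRes_mem_tgJSet {x : ↥(tgFull L M ζ)}
    (hx : (x : LaurentSeries L) ∈ tgJSet L M ζ) :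
    tgFullRes O π hπ hζ hM ⟨x, mem_tgFullV_of_mem_tgJSet O π hπ hζ hM hx⟩ ∈
      tgJSet k M (tgZetaBar O π hζ.pow_eq_one) := by
  obtain ⟨a', d', b', h1, h2, e⟩ := hx
  refine ⟨a', d', b', h1, h2, ?_⟩
  rw [tgFullRes_of_eq_taInc O π hπ hζ hM (e.trans (tgJc_eq_taInc O hζ _ _)), taRed_tgJc O π hζ]

/-! ### The twist `t ↦ ζ t` preserves the Gauss valuation -/

theorem taInc_lsTwist (s : LaurentSeries ↥O) :
    taInc O (lsTwist (tgZetaO O hζ.pow_eq_one) s) = lsTwist ζ (taInc O s) := by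
  have h := coeffMap_lsTwist (O.subtype) (tgZetaO O hζ.pow_eq_one) s
  rw [tgZetaO_map] at h
  exact h

theorem taRed_lsTwist (s : LaurentSeries ↥O) :
    taRed π (lsTwist (tgZetaO O hζ.pow_eq_one) s) =
      lsTwist (tgZetaBar O π hζ.pow_eq_one) (taRed π s) :=
  coeffMap_lsTwist π (tgZetaO O hζ.pow_eq_one) s

include hζ in
theorem taGauss_lsTwist {f : LaurentSeries L} (hf : TaGauss O π f) :
    TaGauss O π (lsTwist ζ f) := by
  obtain ⟨g, h, hh, e⟩ := hf
  refine ⟨lsTwist (tgZetaO O hζ.pow_eq_one) g, lsTwist (tgZetaO O hζ.pow_eq_one) h, ?_, ?_⟩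
  · rw [taRed_lsTwist O π hζ]
    exact fun h0 => hh ((map_eq_zero_iff _ (lsTwist_injective _)).mp h0)
  · rw [taInc_lsTwist O hζ, taInc_lsTwist O hζ, ← map_mul, e]

theorem taRhoFun_lsTwist {f : LaurentSeries L} (hf : TaGauss O π f) :
    taRhoFun O π (lsTwist ζ f) = lsTwist (tgZetaBar O π hζ.pow_eq_one) (taRhoFun O π f) := by
  obtain ⟨g, h, hh, e⟩ := hf
  have hh' : taRed π (lsTwist (tgZetaO O hζ.pow_eq_one) h) ≠ 0 := by
    rw [taRed_lsTwist O π hζ]
    exact fun h0 => hh ((map_eq_zero_iff _ (lsTwist_injective _)).mp h0)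
  have e' : lsTwist ζ f * taInc O (lsTwist (tgZetaO O hζ.pow_eq_one) h) =
      taInc O (lsTwist (tgZetaO O hζ.pow_eq_one) g) := by
    rw [taInc_lsTwist O hζ, taInc_lsTwist O hζ, ← map_mul, e]
  rw [taRhoFun_eq O π hh' e', taRhoFun_eq O π hh e, taRed_lsTwist O π hζ, taRed_lsTwist O π hζ, map_div₀]

end Fermat.Agent.T1G
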