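/-
T1G (helper6): the abstract Gauss package `TaAbs` and the chart `x = j(t^M)` for the full level
field `tgFull L M ζ`, and the embedding `ι_M : F_{M,L} → tgFull L M ζ`, `q ↦ t^M`.
-/
import Fermat.Agent.Lib.T1G.Igusa.FullGauss
import Fermat.Agent.Lib.T1G.Model.Galois
import Fermat.Agent.Lib.T1.GoodRed.Core
import Fermat.Agent.Lib.T1.Inst.FullC

set_option autoImplicit false
set_option linter.unusedSectionVars false
set_option linter.style.haveILetI false

open HahnSeries ModularCurve Fermat.Agent.T1 Fermat.Agent.Igusa Polynomial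

noncomputable section

namespace Fermat.Agent.T1G

section Transc

variable (K : Type*) [Field K] (M : ℕ) [NeZero M] (ζ : Kˣ)

theorem coe_tgJ : ((tgJ K M ζ : ↥(tgFull K M ζ)) : LaurentSeries K) = qExpand K M (jqModC K) := rfl

theorem coe_tgJd {d : ℕ} [NeZero d] (hd : d ∣ M) :
    ((tgJd K M ζ hd : ↥(tgFull K M ζ)) : LaurentSeries K) = qExpand K (M * d) (jqModC K) := rfl

theorem tg_transcendental_qExpand_jqModC : Transcendental K (qExpand K M (jqModC K)) := by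
  intro h
  obtain ⟨p, hp0, hp⟩ := h
  apply igInst_transcendental_jqModC K
  refine ⟨p, hp0, ?_⟩
  have h1 : qExpandAlgHomC K M (aeval (jqModC K) p) = 0 := by
    rw [← Polynomial.aeval_algHom_apply, qExpandAlgHomC_apply]
    exact hp
  rw [qExpandAlgHomC_apply] at h1
  exact (map_eq_zero_iff _ (qExpand_injective M)).mp h1

theorem tg_transcendental_tgJ : Transcendental K (tgJ K M ζ) := by
  intro h
  obtain ⟨p, hp0, hp⟩ := h
  apply tg_transcendental_qExpand_jqModC K M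
  refine ⟨p, hp0, ?_⟩
  have h1 := congrArg (fun z : ↥(tgFull K M ζ) => (z : LaurentSeries K)) hp
  simp only [ZeroMemClass.coe_zero] at h1
  rw [← h1]
  exact Polynomial.aeval_algHom_apply (tgFull K M ζ).val (tgJ K M ζ) p

end Transc

section Generic

variable {L F k Ω : Type*} [Field L] [Field F] [Algebra L F] [Field k] [Field Ω] [Algebra k Ω]
variable {D : TaAbs L F k Ω} (Ch : TaChart D)

theorem tg_chart_ρ_aeval_ne_zero (P : (↥D.O)[X]) (hP : P.map D.π ≠ 0) :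
    D.ρ (Ch.toOv (aeval Ch.xA P)) ≠ 0 := by
  rw [Ch.ρ_toOv_aeval]
  intro h0
  exact hP ((transcendental_iff.mp Ch.trρ) _ h0)

theorem tg_chart_coe_toOv_aeval (P : (↥D.O)[X]) :
    ((Ch.toOv (aeval Ch.xA P) : ↥D.Ov) : F) = aeval Ch.x P := by
  rw [TaChart.coe_toOv, Polynomial.aeval_subalgebra_coe]
  rfl

end Generic

variable {L : Type*} [Field L] (O : ValuationSubring L)
  {k : Type*} [Field k] (π : ↥O →+* k)
  [IsDiscreteValuationRing ↥O] (hπ : Function.Surjective π)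
  {M : ℕ} [NeZero M] {ζ : Lˣ} (hζ : IsPrimitiveRoot ζ M) (hM : (M : k) ≠ 0)

/-- the abstract Gauss package of the full level field -/
def tgFullAbs : TaAbs L ↥(tgFull L M ζ) k (LaurentSeries k) :=
  tgAbsOf O π hπ (tgFull L M ζ) (tg_frac_of_mem_full O π hπ hζ hM)

theorem tgFullAbs_Ov : (tgFullAbs O π hπ hζ hM).Ov = tgFullV O π hπ hζ hM := rfl
theorem tgFullAbs_ρ : (tgFullAbs O π hπ hζ hM).ρ = tgFullRes O π hπ hζ hM := rfl
theorem tgFullAbs_O : (tgFullAbs O π hπ hζ hM).O = O := rfl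
theorem tgFullAbs_π : (tgFullAbs O π hπ hζ hM).π = π := rfl

theorem coe_tgJd_eq_taInc {d : ℕ} [NeZero d] (hd : d ∣ M) :
    ((tgJd L M ζ hd : ↥(tgFull L M ζ)) : LaurentSeries L) =
      taInc O (qExpand ↥O (M * d) (jqModC ↥O)) := by
  rw [coe_tgJd, coeffMap_qExpand_taInc]
where
  coeffMap_qExpand_taInc : qExpand L (M * d) (jqModC L) =
      taInc O (qExpand ↥O (M * d) (jqModC ↥O)) := by
    rw [taInc, coeffMap_qExpand, coeffMap_jqModC]

theorem coe_tgJ_eq_taInc :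
    ((tgJ L M ζ : ↥(tgFull L M ζ)) : LaurentSeries L) = taInc O (qExpand ↥O M (jqModC ↥O)) := by
  rw [coe_tgJ, taInc, coeffMap_qExpand, coeffMap_jqModC]

theorem tgJ_mem_tgFullV : tgJ L M ζ ∈ tgFullV O π hπ hζ hM :=
  mem_taVal_of_eq_taInc O π hπ _ _ (coe_tgJ_eq_taInc O)

theorem tgFullRes_tgJ :
    tgFullRes O π hπ hζ hM ⟨tgJ L M ζ, tgJ_mem_tgFullV O π hπ hζ hM⟩ =
      qExpand k M (jqModC k) := by
  rw [tgFullRes_of_eq_taInc O π hπ hζ hM (coe_tgJ_eq_taInc O), taRed, coeffMap_qExpand,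
    coeffMap_jqModC]

theorem tgJd_mem_tgFullV {d : ℕ} [NeZero d] (hd : d ∣ M) :
    tgJd L M ζ hd ∈ tgFullV O π hπ hζ hM :=
  mem_taVal_of_eq_taInc O π hπ _ _ (coe_tgJd_eq_taInc O hd)

theorem tgFullRes_tgJd {d : ℕ} [NeZero d] (hd : d ∣ M) :
    tgFullRes O π hπ hζ hM ⟨tgJd L M ζ hd, tgJd_mem_tgFullV O π hπ hζ hM hd⟩ =
      qExpand k (M * d) (jqModC k) := by
  rw [tgFullRes_of_eq_taInc O π hπ hζ hM (coe_tgJd_eq_taInc O hd), taRed, coeffMap_qExpand,
    coeffMap_jqModC]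

variable {ϖ : ↥O} (hϖ : Irreducible ϖ)

/-- the chart `x = j(t^M)` of the full level field -/
def tgFullChart : TaChart (tgFullAbs O π hπ hζ hM) where
  x := tgJ L M ζ
  tr := tg_transcendental_tgJ L M ζ
  mem := tgJ_mem_tgFullV O π hπ hζ hM
  trρ := by
    show Transcendental k (tgFullRes O π hπ hζ hM ⟨tgJ L M ζ, tgJ_mem_tgFullV O π hπ hζ hM⟩)
    rw [tgFullRes_tgJ]
    exact tg_transcendental_qExpand_jqModC k M
  ϖ := ϖ
  irr := hϖ

theorem tgFullChart_x : (tgFullChart O π hπ hζ hM hϖ).x = tgJ L M ζ := rfl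

theorem tgFullChart_xb : (tgFullChart O π hπ hζ hM hϖ).xb = qExpand k M (jqModC k) :=
  tgFullRes_tgJ O π hπ hζ hM

/-- `P(j)⁻¹` lies in the Gauss valuation ring for `P ∈ O[X]` with nonzero reduction -/
theorem tg_aeval_inv_mem (P : (↥O)[X]) (hP : P.map π ≠ 0) :
    (aeval (tgJ L M ζ) P)⁻¹ ∈ tgFullV O π hπ hζ hM := by
  obtain ⟨ϖ, hϖ⟩ := IsDiscreteValuationRing.exists_irreducible ↥O
  have h1 := tg_chart_ρ_aeval_ne_zero (tgFullChart O π hπ hζ hM hϖ) P hP
  have h2 := inv_mem_taVal_of_taRes_ne_zero O π hπ _ _ _ h1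
  have h3 := tg_chart_coe_toOv_aeval (tgFullChart O π hπ hζ hM hϖ) P
  rw [h3] at h2
  exact h2

end Fermat.Agent.T1G
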