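/-
T1G (helper6): **the decomposition group of the Gauss valuation of the full level field is all of
`SL₂(ℤ)`**: every `ρ γ` preserves the Gauss valuation ring `tgFullV` of `tgFull L M ζ`.

Proof: `T⁻¹` acts as the twist `t ↦ ζ t`, which preserves Gauss norms; the Gauss valuation of
`F_{M,L} = L(j(q^d) : d ∣ M)` (embedded by `q ↦ t^M`, the fixed field of `Γ₀(M)`) is the unique
extension of the Gauss valuation of `L(j)`, so by transitivity of the Galois action on the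
valuation rings above a given one, `SL₂(ℤ) = D · Γ₀(M)`; finally `Γ₀(M)` normalises `⟨T⟩` modulo
`Γ(M)` and the conjugates of `T` generate `SL₂(ℤ)` (`tgg_decomp`).
-/
import Fermat.Agent.Lib.T1G.Igusa.FullChart
import Fermat.Agent.Lib.T1G.Model.Iota
import Fermat.Agent.Lib.T1G.Model.GaloisPre
import Fermat.Agent.Lib.T1G.Model.TransGroup

set_option autoImplicit false
set_option linter.unusedSectionVars false
set_option linter.style.haveILetI false

open HahnSeries ModularCurve Fermat.Agent.T1 Fermat.Agent.Igusa Polynomial Matrix MatrixGroups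
  CongruenceSubgroup

noncomputable section

namespace Fermat.Agent.T1G

variable {L : Type*} [Field L] [Algebra ℚ L] (O : ValuationSubring L)
  {k : Type*} [Field k] (π : ↥O →+* k)
  [IsDiscreteValuationRing ↥O] (hπ : Function.Surjective π)
  {M : ℕ} [NeZero M] {ζ : Lˣ} (hζ : IsPrimitiveRoot ζ M) (hM : (M : k) ≠ 0)

/-! ### Uniqueness of the Gauss valuation at level `M` -/

include hM in
/-- a valuation ring of `F_{M,L}` above the Gauss valuation ring of `L(j)` is the Gauss valuation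
ring -/
theorem tg_eq_taOv (V' : ValuationSubring ↥(TaF L M))
    (hO : ∀ a : ↥O, algebraMap L ↥(TaF L M) (a : L) ∈ V') (hj : taJ (L := L) M ∈ V')
    (hu : ∀ P : (↥O)[X], P.map π ≠ 0 → (aeval (taJ (L := L) M) P)⁻¹ ∈ V')
    (hϖ : ∀ ϖ : ↥O, Irreducible ϖ → (algebraMap L ↥(TaF L M) ((ϖ : ↥O) : L))⁻¹ ∉ V') :
    V' = taOv O π hπ M := by
  apply le_antisymm
  · intro y hy
    by_cases hy0 : y = 0
    · rw [hy0]
      exact (taOv O π hπ M).zero_mem
    obtain ⟨ϖ, hirr⟩ := IsDiscreteValuationRing.exists_irreducible ↥O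
    obtain ⟨n, u, hu1, hu2, hyu⟩ := ta_exists_zpow_mul_unitN O π hπ M hirr y hy0
    have hϖ0 : algebraMap L ↥(TaF L M) ((ϖ : ↥O) : L) ≠ 0 := by
      rw [Ne, map_eq_zero]
      exact ta_coe_unif_ne_zero hirr
    have hu0 : u ≠ 0 := by
      rintro rfl
      apply hy0
      rw [hyu, mul_zero]
    rcases le_or_gt 0 n with hn | hn
    · obtain ⟨m, rfl⟩ := Int.eq_ofNat_of_zero_le hn
      rw [hyu, zpow_natCast]
      exact (taOv O π hπ M).mul_mem _ _ (pow_mem (algebraMap_mem_taOv O π hπ M ϖ) m) hu1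
    · exfalso
      apply hϖ ϖ hirr
      have h1 : algebraMap L ↥(TaF L M) ((ϖ : ↥O) : L) ^ n = y * u⁻¹ := by
        rw [hyu, mul_assoc, mul_inv_cancel₀ hu0, mul_one]
      have h2 : algebraMap L ↥(TaF L M) ((ϖ : ↥O) : L) ^ n ∈ V' := by
        rw [h1]
        exact V'.mul_mem _ _ hy
          (taOv_le_of_forall_inv_mem O π hπ M hM V' hO hj hu hu2)
      have h3 : (algebraMap L ↥(TaF L M) ((ϖ : ↥O) : L))⁻¹ =
          algebraMap L ↥(TaF L M) ((ϖ : ↥O) : L) ^ n *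
            algebraMap L ↥(TaF L M) ((ϖ : ↥O) : L) ^ (-n - 1).toNat := by
        rw [← zpow_natCast, ← zpow_add₀ hϖ0, ← _root_.zpow_neg_one]
        congr 1
        omega
      rw [h3]
      exact V'.mul_mem _ _ h2 (pow_mem (hO ϖ) _)
  · exact taOv_le_of_forall_inv_mem O π hπ M hM V' hO hj hu

/-! ### The embedding `F_{M,L} → tgFull L M ζ` -/

theorem taF_le_tgOne : TaF L M ≤ TgOne L M ζ := by
  have h : TaF L M = modularFunctionFieldFullC L M := tbi_laurentBaseChange_full L M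
  rw [h]
  exact full_le_tgOne L M ζ

theorem qExpand_mem_tgFull_of_mem_taF {y : LaurentSeries L} (hy : y ∈ TaF L M) :
    qExpand L M y ∈ tgFull L M ζ :=
  qExpand_mem_tgFull L M ζ (taF_le_tgOne hy)

variable (L M ζ) in
/-- `ι_M : F_{M,L} → tgFull L M ζ`, `q ↦ t^M` -/
def tgIotaF : ↥(TaF L M) →ₐ[L] ↥(tgFull L M ζ) where
  toFun y := ⟨qExpand L M (y : LaurentSeries L), qExpand_mem_tgFull_of_mem_taF y.2⟩
  map_one' := Subtype.ext (map_one (qExpand L M))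
  map_mul' _ _ := Subtype.ext (map_mul (qExpand L M) _ _)
  map_zero' := Subtype.ext (map_zero (qExpand L M))
  map_add' _ _ := Subtype.ext (map_add (qExpand L M) _ _)
  commutes' c := Subtype.ext ((qExpandAlgHomC L M).commutes c)

theorem coe_tgIotaF (y : ↥(TaF L M)) :
    ((tgIotaF L M ζ y : ↥(tgFull L M ζ)) : LaurentSeries L) = qExpand L M (y : LaurentSeries L) :=
  rfl

theorem tgIotaF_taJ : tgIotaF L M ζ (taJ M) = tgJ L M ζ := rfl

theorem tgIotaF_taGen {d : ℕ} [NeZero d] (hd : d ∣ M) :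
    tgIotaF L M ζ (taGen M hd) = tgJd L M ζ hd := by
  apply Subtype.ext
  show qExpand L M (qExpand L d (jqModC L)) = qExpand L (M * d) (jqModC L)
  rw [qExpand_qExpand]

/-! ### Comparison of the valuation rings on `F_{M,L}` -/

theorem tg_unif_inv_not_mem {ϖ : ↥O} (hϖ : Irreducible ϖ) :
    (algebraMap L ↥(tgFull L M ζ) ((ϖ : ↥O) : L))⁻¹ ∉ tgFullV O π hπ hζ hM := by
  intro h
  set D := tgFullAbs O π hπ hζ hM with hD
  have h1 : D.ρ ⟨algebraMap L ↥(tgFull L M ζ) ((ϖ : ↥O) : L), D.algebraMap_mem ϖ⟩ = 0 :=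
    D.ρ_unif hϖ
  have h2 : (⟨algebraMap L ↥(tgFull L M ζ) ((ϖ : ↥O) : L), D.algebraMap_mem ϖ⟩ : ↥D.Ov) *
      ⟨(algebraMap L ↥(tgFull L M ζ) ((ϖ : ↥O) : L))⁻¹, h⟩ = 1 := by
    apply Subtype.ext
    show algebraMap L ↥(tgFull L M ζ) ((ϖ : ↥O) : L) *
      (algebraMap L ↥(tgFull L M ζ) ((ϖ : ↥O) : L))⁻¹ = 1
    refine mul_inv_cancel₀ ?_
    rw [Ne, map_eq_zero]
    exact ta_coe_unif_ne_zero hϖ
  have h3 := congrArg D.ρ h2
  rw [map_mul, h1, zero_mul, map_one] at h3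
  exact zero_ne_one h3

/-- for every `L`-automorphism `σ` of the full level field fixing `j`, the pull-back of the Gauss
valuation ring under `σ ∘ ι_M` is the Gauss valuation ring of `F_{M,L}` -/
theorem tg_comap_eq_taOv (σ : ↥(tgFull L M ζ) ≃ₐ[L] ↥(tgFull L M ζ))
    (hσ : σ (tgJ L M ζ) = tgJ L M ζ) :
    ((tgFullV O π hπ hζ hM).comap (σ : ↥(tgFull L M ζ) →+* ↥(tgFull L M ζ))).comap
      (tgIotaF L M ζ : ↥(TaF L M) →+* ↥(tgFull L M ζ)) = taOv O π hπ M := by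
  have hc : ∀ c : L, σ (tgIotaF L M ζ (algebraMap L ↥(TaF L M) c)) =
      algebraMap L ↥(tgFull L M ζ) c := by
    intro c
    rw [AlgHom.commutes, AlgEquiv.commutes]
  apply tg_eq_taOv O π hπ hM
  · intro a
    show σ (tgIotaF L M ζ (algebraMap L ↥(TaF L M) (a : L))) ∈ tgFullV O π hπ hζ hM
    rw [hc]
    exact tg_algebraMap_mem_taVal O π hπ _ _ a
  · show σ (tgIotaF L M ζ (taJ M)) ∈ tgFullV O π hπ hζ hM
    rw [tgIotaF_taJ, hσ]
    exact tgJ_mem_tgFullV O π hπ hζ hM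
  · intro P hP
    show σ (tgIotaF L M ζ (aeval (taJ (L := L) M) P)⁻¹) ∈ tgFullV O π hπ hζ hM
    have h1 : σ (tgIotaF L M ζ (aeval (taJ (L := L) M) P)⁻¹) =
        (aeval (tgJ L M ζ) P)⁻¹ := by
      rw [map_inv₀, map_inv₀]
      congr 1
      set ψ : ↥(TaF L M) →+* ↥(tgFull L M ζ) :=
        (σ : ↥(tgFull L M ζ) →+* ↥(tgFull L M ζ)).comp
          (tgIotaF L M ζ : ↥(TaF L M) →+* ↥(tgFull L M ζ)) with hψ
      have h2 : ψ.comp (algebraMap ↥O ↥(TaF L M)) = algebraMap ↥O ↥(tgFull L M ζ) :=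
        RingHom.ext fun a => hc (a : L)
      have h3 : ψ (aeval (taJ (L := L) M) P) = aeval (ψ (taJ (L := L) M)) P := by
        rw [aeval_def, aeval_def, hom_eval₂, h2]
      have h4 : ψ (taJ (L := L) M) = tgJ L M ζ := by
        show σ (tgIotaF L M ζ (taJ M)) = _
        rw [tgIotaF_taJ, hσ]
      rw [h4] at h3
      exact h3
    rw [h1]
    exact tg_aeval_inv_mem O π hπ hζ hM P hP
  · intro ϖ hϖ h
    have h1 : σ (tgIotaF L M ζ (algebraMap L ↥(TaF L M) ((ϖ : ↥O) : L))⁻¹) ∈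
        tgFullV O π hπ hζ hM := h
    rw [map_inv₀, map_inv₀, hc] at h1
    exact tg_unif_inv_not_mem O π hπ hζ hM hϖ h1

/-- Gauss-integrality of elements of `ι_M (F_{M,L})` is invariant under automorphisms fixing `j` -/
theorem tg_iota_mem_iff (σ : ↥(tgFull L M ζ) ≃ₐ[L] ↥(tgFull L M ζ))
    (hσ : σ (tgJ L M ζ) = tgJ L M ζ) (y : ↥(TaF L M)) :
    tgIotaF L M ζ y ∈ tgFullV O π hπ hζ hM ↔ σ (tgIotaF L M ζ y) ∈ tgFullV O π hπ hζ hM := by
  have h1 := tg_comap_eq_taOv O π hπ hζ hM σ hσ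
  have h2 := tg_comap_eq_taOv O π hπ hζ hM AlgEquiv.refl rfl
  have e1 : σ (tgIotaF L M ζ y) ∈ tgFullV O π hπ hζ hM ↔ y ∈ taOv O π hπ M := by
    rw [← h1]
    rfl
  have e2 : tgIotaF L M ζ y ∈ tgFullV O π hπ hζ hM ↔ y ∈ taOv O π hπ M := by
    rw [← h2]
    rfl
  rw [e1, e2]

/-! ### The decomposition group -/

variable (Gal : TgGalois L M ζ)

include hM in
/-- an element fixed by `Γ₀(M)` comes from `F_{M,L}` -/
theorem tg_exists_iota_eq_of_fixed (x : ↥(tgFull L M ζ))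
    (hx : ∀ γ ∈ Gamma0 M, Gal.ρ γ x = x) : ∃ y : ↥(TaF L M), tgIotaF L M ζ y = x := by
  haveI : Finite ↥Gal.ρ.range := Gal.toPre.finite_range
  have h1 := tgn_mem_adjoin_of_fixed Gal.ρ.range ((Gamma0 M).map Gal.ρ)
    {tgJd L M ζ (dvd_refl M)}
    (by
      rintro g ⟨γ, rfl⟩ hg
      refine ⟨γ, ?_, rfl⟩
      exact Gal.stab_jM γ (hg _ rfl))
    (IntermediateField.adjoin L {tgJ L M ζ})
    (by
      intro z hz
      exact Gal.fixed z (fun γ => hz _ ⟨γ, rfl⟩))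
    x
    (by
      rintro h ⟨γ, hγ, rfl⟩
      exact hx γ hγ)
  have h2 : IntermediateField.adjoin L
      (((IntermediateField.adjoin L {tgJ L M ζ} : IntermediateField L ↥(tgFull L M ζ)) :
        Set ↥(tgFull L M ζ)) ∪ {tgJd L M ζ (dvd_refl M)}) ≤ (tgIotaF L M ζ).fieldRange := by
    rw [IntermediateField.adjoin_le_iff]
    rintro z (hz | hz)
    · have h3 : IntermediateField.adjoin L {tgJ L M ζ} ≤ (tgIotaF L M ζ).fieldRange := by
        rw [IntermediateField.adjoin_le_iff]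
        rintro w hw
        rw [Set.mem_singleton_iff] at hw
        rw [hw]
        exact ⟨taJ M, tgIotaF_taJ⟩
      exact h3 hz
    · rw [Set.mem_singleton_iff] at hz
      rw [hz]
      exact ⟨taGen M (dvd_refl M), tgIotaF_taGen (dvd_refl M)⟩
  exact h2 h1

include hM in
/-- `SL₂(ℤ) = D · Γ₀(M)` -/
theorem tg_exists_Gamma0 (g : SL(2, ℤ)) : ∃ h ∈ Gamma0 M, ∀ x : ↥(tgFull L M ζ),
    Gal.ρ g x ∈ tgFullV O π hπ hζ hM ↔ Gal.ρ h x ∈ tgFullV O π hπ hζ hM := by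
  haveI : Finite ↥Gal.ρ.range := Gal.toPre.finite_range
  haveI : Finite ↥((Gamma0 M).map Gal.ρ) :=
    Finite.of_injective (Subgroup.inclusion (Subgroup.map_le_range Gal.ρ (Gamma0 M)))
      (Subgroup.inclusion_injective _)
  obtain ⟨σ, ⟨h, hh, rfl⟩, hσ⟩ := tg_exists_mem_subgroup ((Gamma0 M).map Gal.ρ)
    (tgFullV O π hπ hζ hM)
    ((tgFullV O π hπ hζ hM).comap (Gal.ρ g : ↥(tgFull L M ζ) →+* ↥(tgFull L M ζ)))
    (by
      intro x hx
      obtain ⟨y, rfl⟩ := tg_exists_iota_eq_of_fixed hM Gal x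
        (fun γ hγ => hx _ ⟨γ, hγ, rfl⟩)
      exact tg_iota_mem_iff O π hπ hζ hM (Gal.ρ g) (Gal.ρ_J g) y)
  exact ⟨h, hh, fun x => hσ x⟩

/-- `ρ γ` preserves the Gauss valuation ring as soon as it maps it into itself -/
theorem tg_mem_iff_of_forall (γ : SL(2, ℤ))
    (h : ∀ x ∈ tgFullV O π hπ hζ hM, Gal.ρ γ x ∈ tgFullV O π hπ hζ hM)
    (x : ↥(tgFull L M ζ)) :
    x ∈ tgFullV O π hπ hζ hM ↔ Gal.ρ γ x ∈ tgFullV O π hπ hζ hM := by
  refine ⟨h x, fun hx => ?_⟩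
  obtain ⟨n, hn, hpow⟩ := Gal.toPre.exists_pow_eq_one γ
  have h1 : ∀ m : ℕ, ∀ y ∈ tgFullV O π hπ hζ hM, (Gal.ρ γ ^ m) y ∈ tgFullV O π hπ hζ hM := by
    intro m
    induction m with
    | zero => intro y hy; simpa using hy
    | succ m ih =>
      intro y hy
      rw [pow_succ, AlgEquiv.mul_apply]
      exact ih _ (h y hy)
  have h2 : x = (Gal.ρ γ ^ (n - 1)) (Gal.ρ γ x) := by
    rw [← AlgEquiv.mul_apply, ← pow_succ, Nat.sub_add_cancel hn]
    have : Gal.ρ γ ^ n = 1 := hpow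
    rw [this, AlgEquiv.one_apply]
  rw [h2]
  exact h1 _ _ hx

/-- the decomposition group of the Gauss valuation -/
def tgDecomp : Subgroup SL(2, ℤ) where
  carrier := {γ | ∀ x : ↥(tgFull L M ζ),
    x ∈ tgFullV O π hπ hζ hM ↔ Gal.ρ γ x ∈ tgFullV O π hπ hζ hM}
  one_mem' := fun x => by rw [map_one, AlgEquiv.one_apply]
  mul_mem' := fun {a b} ha hb x => by
    rw [map_mul, AlgEquiv.mul_apply, ← ha, ← hb]
  inv_mem' := fun {a} ha x => by
    rw [ha (Gal.ρ a⁻¹ x), ← AlgEquiv.mul_apply, ← map_mul, mul_inv_cancel, map_one,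
      AlgEquiv.one_apply]

theorem mem_tgDecomp_iff (γ : SL(2, ℤ)) :
    γ ∈ tgDecomp O π hπ hζ hM Gal ↔ ∀ x : ↥(tgFull L M ζ),
      x ∈ tgFullV O π hπ hζ hM ↔ Gal.ρ γ x ∈ tgFullV O π hπ hζ hM := Iff.rfl

theorem T_mem_tgDecomp : ModularGroup.T ∈ tgDecomp O π hπ hζ hM Gal := by
  have h1 : ModularGroup.T⁻¹ ∈ tgDecomp O π hπ hζ hM Gal := by
    rw [mem_tgDecomp_iff]
    refine tg_mem_iff_of_forall O π hπ hζ hM Gal _ ?_
    intro x hx
    rw [mem_tgFullV_iff, Gal.ρ_T]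
    exact taGauss_lsTwist O π hζ hx
  simpa using (tgDecomp O π hπ hζ hM Gal).inv_mem h1

include hM in
/-- **the decomposition group is everything** -/
theorem tgDecomp_eq_top : tgDecomp O π hπ hζ hM Gal = ⊤ := by
  apply tgg_decomp (M := M) _ (T_mem_tgDecomp O π hπ hζ hM Gal)
  · intro γ hγ
    rw [mem_tgDecomp_iff]
    intro x
    rw [Gal.ρ_Gamma γ hγ, AlgEquiv.one_apply]
  · intro g
    obtain ⟨h, hh, hgh⟩ := tg_exists_Gamma0 O π hπ hζ hM Gal g
    refine ⟨g * h⁻¹, ?_, h, hh, by group⟩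
    rw [mem_tgDecomp_iff]
    intro x
    have h1 := hgh (Gal.ρ h⁻¹ x)
    rw [← AlgEquiv.mul_apply, ← map_mul, ← AlgEquiv.mul_apply, ← map_mul, mul_inv_cancel, map_one,
      AlgEquiv.one_apply] at h1
    exact h1.symm

include hM in
/-- **every `ρ γ` preserves the Gauss valuation ring** -/
theorem tg_ρ_mem_iff (γ : SL(2, ℤ)) (x : ↥(tgFull L M ζ)) :
    x ∈ tgFullV O π hπ hζ hM ↔ Gal.ρ γ x ∈ tgFullV O π hπ hζ hM := by
  have h : γ ∈ tgDecomp O π hπ hζ hM Gal := by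
    rw [tgDecomp_eq_top O π hπ hζ hM Gal]
    exact Subgroup.mem_top γ
  exact (mem_tgDecomp_iff O π hπ hζ hM Gal γ).mp h x

end Fermat.Agent.T1G
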