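/-
T1G (helper6): **reduction of the Galois package**.  From `Gal : TgGalois L M ζ` over a discretely
valued field `(L, O, π : O → k)` of characteristic `0` with `(M : k) ≠ 0` we construct the action
of `SL₂(ℤ)` on the full level field `tgFull k M ζ̄` of the residue field:
`ρ̄ γ (res x) = res (ρ γ x)`  (`tgRhoBar`, `tgPreBar : TgPre k M ζ̄`).
-/
import Fermat.Agent.Lib.T1G.Igusa.Decomp
import Fermat.Agent.Lib.T1G.GoodRed.ResAut
import Fermat.Agent.Lib.T1G.Model.JcOrder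

set_option autoImplicit false
set_option linter.unusedSectionVars false
set_option linter.style.haveILetI false
set_option synthInstance.maxHeartbeats 400000

open HahnSeries ModularCurve Fermat.Agent.T1 Fermat.Agent.Igusa Polynomial Matrix MatrixGroups
  CongruenceSubgroup

noncomputable section

namespace Fermat.Agent.T1G

variable {L : Type*} [Field L] [Algebra ℚ L] (O : ValuationSubring L)
  {k : Type*} [Field k] (π : ↥O →+* k)
  [IsDiscreteValuationRing ↥O] (hπ : Function.Surjective π)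
  {M : ℕ} [NeZero M] {ζ : Lˣ} (hζ : IsPrimitiveRoot ζ M) (hM : (M : k) ≠ 0)

/-- the residue field of the Gauss valuation of the full level field -/
def tgFullResField : IntermediateField k (LaurentSeries k) :=
  tgResRange O π hπ (tgFull L M ζ) (tg_frac_of_mem_full O π hπ hζ hM)

/-- the residue map onto the residue field -/
def tgFullResHom : ↥(tgFullV O π hπ hζ hM) →+* ↥(tgFullResField O π hπ hζ hM) :=
  tgResHom O π hπ (tgFull L M ζ) (tg_frac_of_mem_full O π hπ hζ hM)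

theorem coe_tgFullResHom (x : ↥(tgFullV O π hπ hζ hM)) :
    ((tgFullResHom O π hπ hζ hM x : ↥(tgFullResField O π hπ hζ hM)) : LaurentSeries k) =
      tgFullRes O π hπ hζ hM x := rfl

theorem tgFullResHom_surjective : Function.Surjective (tgFullResHom O π hπ hζ hM) :=
  tgResHom_surjective O π hπ _ _

theorem tgFullRes_mem_resField (x : ↥(tgFullV O π hπ hζ hM)) :
    tgFullRes O π hπ hζ hM x ∈ tgFullResField O π hπ hζ hM := ⟨x, rfl⟩

/-! ### The generators of `tgFull k M ζ̄` are residues -/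

theorem tgJcE_mem {a' d' b' : ℕ} (h : a' * d' ∣ M) (hb : b' < d') :
    (⟨tgJc L ζ (M / d' * b') (M / d' * a'), tgJc_mem_tgFull L M ζ h hb⟩ : ↥(tgFull L M ζ)) ∈
      tgFullV O π hπ hζ hM :=
  mem_tgFullV_of_mem_tgJSet O π hπ hζ hM ⟨a', d', b', h, hb, rfl⟩

theorem tgFullRes_tgJcE {a' d' b' : ℕ} (h : a' * d' ∣ M) (hb : b' < d') :
    tgFullRes O π hπ hζ hM ⟨_, tgJcE_mem O π hπ hζ hM h hb⟩ =
      tgJc k (tgZetaBar O π hζ.pow_eq_one) (M / d' * b') (M / d' * a') := by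
  rw [tgFullRes_of_eq_taInc O π hπ hζ hM (tgJc_eq_taInc O hζ _ _), taRed_tgJc O π hζ]

/-- the full level field of the residue field is contained in the residue field of the full
level field -/
theorem tgFull_bar_le :
    tgFull k M (tgZetaBar O π hζ.pow_eq_one) ≤ tgFullResField O π hπ hζ hM := by
  rw [tgFull, IntermediateField.adjoin_le_iff]
  rintro y (⟨a', d', b', h, hb, rfl⟩ | ⟨v, w, hv, hw, rfl⟩)
  · exact ⟨_, tgFullRes_tgJcE O π hπ hζ hM h hb⟩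
  · exact ⟨_, tgFullRes_tgNuE O π hπ hζ hM hv hw⟩

/-! ### The action on the residue field -/

variable (Gal : TgGalois L M ζ)

/-- `ρ` with values in the stabiliser of the Gauss valuation ring -/
def tgRhoStab : SL(2, ℤ) →*
    ↥(tgStab O π hπ (tgFull L M ζ) (tg_frac_of_mem_full O π hπ hζ hM)) :=
  Gal.ρ.codRestrict _ (fun γ => (mem_tgStab_iff O π hπ _ _ _).mpr
    (fun x => tg_ρ_mem_iff O π hπ hζ hM Gal γ x))

theorem coe_tgRhoStab (γ : SL(2, ℤ)) :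
    ((tgRhoStab O π hπ hζ hM Gal γ : ↥(tgStab O π hπ (tgFull L M ζ) _)) :
      ↥(tgFull L M ζ) ≃ₐ[L] ↥(tgFull L M ζ)) = Gal.ρ γ := rfl

/-- the action of `SL₂(ℤ)` on the residue field of the full level field -/
def tgRhoRes : SL(2, ℤ) →*
    (↥(tgFullResField O π hπ hζ hM) ≃ₐ[k] ↥(tgFullResField O π hπ hζ hM)) :=
  (tgResAut O π hπ (tgFull L M ζ) (tg_frac_of_mem_full O π hπ hζ hM)).comp
    (tgRhoStab O π hπ hζ hM Gal)

theorem tg_ρ_mem (γ : SL(2, ℤ)) {x : ↥(tgFull L M ζ)} (hx : x ∈ tgFullV O π hπ hζ hM) :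
    Gal.ρ γ x ∈ tgFullV O π hπ hζ hM :=
  (tg_ρ_mem_iff O π hπ hζ hM Gal γ x).mp hx

/-- **`ρ̃ γ (res x) = res (ρ γ x)`** -/
theorem tgRhoRes_resHom (γ : SL(2, ℤ)) (x : ↥(tgFullV O π hπ hζ hM)) :
    tgRhoRes O π hπ hζ hM Gal γ (tgFullResHom O π hπ hζ hM x) =
      tgFullResHom O π hπ hζ hM ⟨Gal.ρ γ x, tg_ρ_mem O π hπ hζ hM Gal γ x.2⟩ :=
  tgResAut_tgResHom _ x

theorem coe_tgRhoRes_mk (γ : SL(2, ℤ)) {x : ↥(tgFull L M ζ)}
    (hx : x ∈ tgFullV O π hπ hζ hM) (h) :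
    ((tgRhoRes O π hπ hζ hM Gal γ ⟨tgFullRes O π hπ hζ hM ⟨x, hx⟩, h⟩ :
      ↥(tgFullResField O π hπ hζ hM)) : LaurentSeries k) =
      tgFullRes O π hπ hζ hM ⟨Gal.ρ γ x, tg_ρ_mem O π hπ hζ hM Gal γ hx⟩ :=
  congrArg (fun z : ↥(tgFullResField O π hπ hζ hM) => (z : LaurentSeries k))
    (tgRhoRes_resHom O π hπ hζ hM Gal γ ⟨x, hx⟩)

/-! ### The full level field of `k` is stable -/

include hM in
theorem tgRhoRes_mem_bar (γ : SL(2, ℤ)) (y : LaurentSeries k)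
    (hy : y ∈ tgFull k M (tgZetaBar O π hζ.pow_eq_one)) :
    ∀ hyR : y ∈ tgFullResField O π hπ hζ hM,
      ((tgRhoRes O π hπ hζ hM Gal γ ⟨y, hyR⟩ : ↥(tgFullResField O π hπ hζ hM)) :
        LaurentSeries k) ∈ tgFull k M (tgZetaBar O π hζ.pow_eq_one) := by
  have hle := tgFull_bar_le O π hπ hζ hM
  rw [tgFull] at hy
  induction hy using IntermediateField.adjoin_induction with
  | mem y hy =>
    intro hyR
    rcases hy with ⟨a', d', b', h, hb, rfl⟩ | ⟨v, w, hv, hw, rfl⟩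
    · have e : (⟨tgJc k (tgZetaBar O π hζ.pow_eq_one) (M / d' * b') (M / d' * a'), hyR⟩ :
          ↥(tgFullResField O π hπ hζ hM)) =
          ⟨tgFullRes O π hπ hζ hM ⟨_, tgJcE_mem O π hπ hζ hM h hb⟩,
            tgFullRes_mem_resField O π hπ hζ hM _⟩ :=
        Subtype.ext (tgFullRes_tgJcE O π hπ hζ hM h hb).symm
      rw [e, coe_tgRhoRes_mk]
      have h1 := Gal.ρ_jset γ ⟨_, tgJc_mem_tgFull L M ζ h hb⟩ ⟨a', d', b', h, hb, rfl⟩
      have h2 := tgFullRes_mem_tgJSet O π hπ hζ hM h1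
      exact IntermediateField.subset_adjoin k _ (Or.inl h2)
    · have e : (⟨tgNu k M (tgZetaBar O π hζ.pow_eq_one) v w, hyR⟩ :
          ↥(tgFullResField O π hπ hζ hM)) =
          ⟨tgFullRes O π hπ hζ hM ⟨_, tgNuE_mem_tgFullV O π hπ hζ hM hv hw⟩,
            tgFullRes_mem_resField O π hπ hζ hM _⟩ :=
        Subtype.ext (tgFullRes_tgNuE O π hπ hζ hM hv hw).symm
      rw [e, coe_tgRhoRes_mk]
      have h1 : tgFullRes O π hπ hζ hM
          ⟨Gal.ρ γ (tgNuE L M ζ hv hw), tg_ρ_mem O π hπ hζ hM Gal γ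
            (tgNuE_mem_tgFullV O π hπ hζ hM hv hw)⟩ =
          tgNu k M (tgZetaBar O π hζ.pow_eq_one) (tgAct M γ⁻¹ v) (tgAct M γ⁻¹ w) := by
        rw [← tgFullRes_tgNuE O π hπ hζ hM (tgAct_ne_zero M γ⁻¹ hv) (tgAct_ne_zero M γ⁻¹ hw)]
        congr 1
        exact Subtype.ext (Gal.ρ_nu γ hv hw)
      rw [h1]
      exact tgNu_mem_tgFull k M _ (tgAct_ne_zero M γ⁻¹ hv) (tgAct_ne_zero M γ⁻¹ hw)
  | algebraMap c =>
    intro hyR
    have e : (⟨algebraMap k (LaurentSeries k) c, hyR⟩ : ↥(tgFullResField O π hπ hζ hM)) =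
        algebraMap k ↥(tgFullResField O π hπ hζ hM) c := rfl
    rw [e, AlgEquiv.commutes]
    exact IntermediateField.algebraMap_mem _ c
  | add x y hx hy ihx ihy =>
    intro hyR
    have hx' := hle hx
    have hy' := hle hy
    have e : (⟨x + y, hyR⟩ : ↥(tgFullResField O π hπ hζ hM)) = ⟨x, hx'⟩ + ⟨y, hy'⟩ := rfl
    rw [e, map_add, IntermediateField.coe_add]
    exact add_mem (ihx hx') (ihy hy')
  | inv x hx ihx =>
    intro hyR
    have hx' := hle hx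
    have e : (⟨x⁻¹, hyR⟩ : ↥(tgFullResField O π hπ hζ hM)) = (⟨x, hx'⟩)⁻¹ := rfl
    rw [e, map_inv₀, IntermediateField.coe_inv]
    exact inv_mem (ihx hx')
  | mul x y hx hy ihx ihy =>
    intro hyR
    have hx' := hle hx
    have hy' := hle hy
    have e : (⟨x * y, hyR⟩ : ↥(tgFullResField O π hπ hζ hM)) = ⟨x, hx'⟩ * ⟨y, hy'⟩ := rfl
    rw [e, map_mul, IntermediateField.coe_mul]
    exact mul_mem (ihx hx') (ihy hy')

/-- the inclusion of `tgFull k M ζ̄` into the residue field -/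
def tgBarIncl : ↥(tgFull k M (tgZetaBar O π hζ.pow_eq_one)) →ₐ[k]
    ↥(tgFullResField O π hπ hζ hM) :=
  IntermediateField.inclusion (tgFull_bar_le O π hπ hζ hM)

theorem coe_tgBarIncl (z : ↥(tgFull k M (tgZetaBar O π hζ.pow_eq_one))) :
    ((tgBarIncl O π hπ hζ hM z : ↥(tgFullResField O π hπ hζ hM)) : LaurentSeries k) = z := rfl

/-- the underlying function of `ρ̄ γ` -/
def tgRhoBarFun (γ : SL(2, ℤ)) (z : ↥(tgFull k M (tgZetaBar O π hζ.pow_eq_one))) :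
    ↥(tgFull k M (tgZetaBar O π hζ.pow_eq_one)) :=
  ⟨((tgRhoRes O π hπ hζ hM Gal γ (tgBarIncl O π hπ hζ hM z) :
      ↥(tgFullResField O π hπ hζ hM)) : LaurentSeries k),
    tgRhoRes_mem_bar O π hπ hζ hM Gal γ _ z.2 _⟩

theorem tgBarIncl_tgRhoBarFun (γ : SL(2, ℤ))
    (z : ↥(tgFull k M (tgZetaBar O π hζ.pow_eq_one))) :
    tgBarIncl O π hπ hζ hM (tgRhoBarFun O π hπ hζ hM Gal γ z) =
      tgRhoRes O π hπ hζ hM Gal γ (tgBarIncl O π hπ hζ hM z) := rfl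

theorem tgBarIncl_injective : Function.Injective (tgBarIncl O π hπ hζ hM) :=
  (tgBarIncl O π hπ hζ hM).toRingHom.injective

theorem tgRhoBarFun_one (z : ↥(tgFull k M (tgZetaBar O π hζ.pow_eq_one))) :
    tgRhoBarFun O π hπ hζ hM Gal 1 z = z := by
  apply tgBarIncl_injective O π hπ hζ hM
  rw [tgBarIncl_tgRhoBarFun, map_one, AlgEquiv.one_apply]

theorem tgRhoBarFun_mul (γ δ : SL(2, ℤ)) (z : ↥(tgFull k M (tgZetaBar O π hζ.pow_eq_one))) :
    tgRhoBarFun O π hπ hζ hM Gal (γ * δ) z =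
      tgRhoBarFun O π hπ hζ hM Gal γ (tgRhoBarFun O π hπ hζ hM Gal δ z) := by
  apply tgBarIncl_injective O π hπ hζ hM
  rw [tgBarIncl_tgRhoBarFun, tgBarIncl_tgRhoBarFun, tgBarIncl_tgRhoBarFun, map_mul,
    AlgEquiv.mul_apply]

/-- `ρ̄ γ` as an automorphism of `tgFull k M ζ̄` -/
def tgRhoBarEquiv (γ : SL(2, ℤ)) :
    ↥(tgFull k M (tgZetaBar O π hζ.pow_eq_one)) ≃ₐ[k]
      ↥(tgFull k M (tgZetaBar O π hζ.pow_eq_one)) where
  toFun := tgRhoBarFun O π hπ hζ hM Gal γ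
  invFun := tgRhoBarFun O π hπ hζ hM Gal γ⁻¹
  left_inv z := by rw [← tgRhoBarFun_mul, inv_mul_cancel, tgRhoBarFun_one]
  right_inv z := by rw [← tgRhoBarFun_mul, mul_inv_cancel, tgRhoBarFun_one]
  map_mul' z w := by
    apply tgBarIncl_injective O π hπ hζ hM
    rw [tgBarIncl_tgRhoBarFun, map_mul, map_mul, map_mul, tgBarIncl_tgRhoBarFun,
      tgBarIncl_tgRhoBarFun]
  map_add' z w := by
    apply tgBarIncl_injective O π hπ hζ hM
    rw [tgBarIncl_tgRhoBarFun, map_add, map_add, map_add, tgBarIncl_tgRhoBarFun,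
      tgBarIncl_tgRhoBarFun]
  commutes' c := by
    apply tgBarIncl_injective O π hπ hζ hM
    rw [tgBarIncl_tgRhoBarFun, AlgHom.commutes, AlgEquiv.commutes]

/-- **the action of `SL₂(ℤ)` on the full level field of the residue field** -/
def tgRhoBar : SL(2, ℤ) →*
    (↥(tgFull k M (tgZetaBar O π hζ.pow_eq_one)) ≃ₐ[k]
      ↥(tgFull k M (tgZetaBar O π hζ.pow_eq_one))) where
  toFun := tgRhoBarEquiv O π hπ hζ hM Gal
  map_one' := AlgEquiv.ext fun z => tgRhoBarFun_one O π hπ hζ hM Gal z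
  map_mul' γ δ := AlgEquiv.ext fun z => tgRhoBarFun_mul O π hπ hζ hM Gal γ δ z

theorem tgRhoBar_apply (γ : SL(2, ℤ)) (z : ↥(tgFull k M (tgZetaBar O π hζ.pow_eq_one))) :
    tgRhoBar O π hπ hζ hM Gal γ z = tgRhoBarFun O π hπ hζ hM Gal γ z := rfl

/-- **`ρ̄ γ (res x) = res (ρ γ x)`** -/
theorem coe_tgRhoBar_res (γ : SL(2, ℤ)) {x : ↥(tgFull L M ζ)}
    (hx : x ∈ tgFullV O π hπ hζ hM)
    (h : tgFullRes O π hπ hζ hM ⟨x, hx⟩ ∈ tgFull k M (tgZetaBar O π hζ.pow_eq_one)) :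
    ((tgRhoBar O π hπ hζ hM Gal γ ⟨tgFullRes O π hπ hζ hM ⟨x, hx⟩, h⟩ :
      ↥(tgFull k M (tgZetaBar O π hζ.pow_eq_one))) : LaurentSeries k) =
      tgFullRes O π hπ hζ hM ⟨Gal.ρ γ x, tg_ρ_mem O π hπ hζ hM Gal γ hx⟩ :=
  coe_tgRhoRes_mk O π hπ hζ hM Gal γ hx _

end Fermat.Agent.T1G
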