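/-
T1G (helper6): the reduced action `tgRhoBar` satisfies all the axioms of the Galois package except
(a priori) the fixed field condition: `tgPreBar : TgPre k M ζ̄`.
-/
import Fermat.Agent.Lib.T1G.Igusa.Reduce

set_option autoImplicit false
set_option linter.unusedSectionVars false
set_option linter.style.haveILetI false
set_option synthInstance.maxHeartbeats 400000

open HahnSeries ModularCurve Fermat.Agent.T1 Fermat.Agent.Igusa Polynomial Matrix MatrixGroups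
  CongruenceSubgroup

noncomputable section

namespace Fermat.Agent.T1G

variable {L : Type*} [Field L] [Algebra ℚ L] (O : ValuationSubring L)
  {k : Type*} [Field k] (π : ↥O →+* k)
  [IsDiscreteValuationRing ↥O] (hπ : Function.Surjective π)
  {M : ℕ} [NeZero M] {ζ : Lˣ} (hζ : IsPrimitiveRoot ζ M) (hM : (M : k) ≠ 0)
  (Gal : TgGalois L M ζ)

/-- the universal tool: `ρ̄ γ z = res (ρ γ x)` whenever `res x = z` -/
theorem coe_tgRhoBar_of_res (γ : SL(2, ℤ)) (z : ↥(tgFull k M (tgZetaBar O π hζ.pow_eq_one)))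
    {x : ↥(tgFull L M ζ)} (hx : x ∈ tgFullV O π hπ hζ hM)
    (hz : tgFullRes O π hπ hζ hM ⟨x, hx⟩ = (z : LaurentSeries k)) :
    ((tgRhoBar O π hπ hζ hM Gal γ z : ↥(tgFull k M (tgZetaBar O π hζ.pow_eq_one))) :
      LaurentSeries k) =
      tgFullRes O π hπ hζ hM ⟨Gal.ρ γ x, tg_ρ_mem O π hπ hζ hM Gal γ hx⟩ := by
  have h : tgFullRes O π hπ hζ hM ⟨x, hx⟩ ∈ tgFull k M (tgZetaBar O π hζ.pow_eq_one) := by
    rw [hz]
    exact z.2
  have e : z = ⟨tgFullRes O π hπ hζ hM ⟨x, hx⟩, h⟩ := Subtype.ext hz.symm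
  rw [e]
  exact coe_tgRhoBar_res O π hπ hζ hM Gal γ hx h

/-- every element of `tgFull k M ζ̄` is a residue -/
theorem tg_exists_res_eq (z : ↥(tgFull k M (tgZetaBar O π hζ.pow_eq_one))) :
    ∃ (x : ↥(tgFull L M ζ)) (hx : x ∈ tgFullV O π hπ hζ hM),
      tgFullRes O π hπ hζ hM ⟨x, hx⟩ = (z : LaurentSeries k) := by
  obtain ⟨x, hx⟩ := tgFull_bar_le O π hπ hζ hM z.2
  exact ⟨x.1, x.2, hx⟩

theorem tgRhoBar_eq_one_of (γ : SL(2, ℤ)) (h : Gal.ρ γ = 1) :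
    tgRhoBar O π hπ hζ hM Gal γ = 1 := by
  apply AlgEquiv.ext
  intro z
  obtain ⟨x, hx, hz⟩ := tg_exists_res_eq O π hπ hζ hM z
  apply Subtype.ext
  rw [coe_tgRhoBar_of_res O π hπ hζ hM Gal γ z hx hz, AlgEquiv.one_apply, ← hz]
  congr 1
  apply Subtype.ext
  show Gal.ρ γ x = x
  rw [h, AlgEquiv.one_apply]

theorem tgJd_mem_tgJSet (K : Type*) [Field K] (ζ' : Kˣ) :
    ((tgJd K M ζ' (dvd_refl M) : ↥(tgFull K M ζ')) : LaurentSeries K) ∈ tgJSet K M ζ' := by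
  haveI : NeZero (M * M) := ⟨mul_ne_zero (NeZero.ne M) (NeZero.ne M)⟩
  refine ⟨M, 1, 0, by rw [mul_one], Nat.one_pos, ?_⟩
  rw [Nat.div_one, mul_zero, tgJc_zero_eq]
  rfl

/-- **the reduced package (without the fixed field condition)** -/
def tgPreBar : TgPre k M (tgZetaBar O π hζ.pow_eq_one) where
  ρ := tgRhoBar O π hπ hζ hM Gal
  ρ_nu := fun γ {v w} hv hw => by
    apply Subtype.ext
    rw [coe_tgRhoBar_of_res O π hπ hζ hM Gal γ _ (tgNuE_mem_tgFullV O π hπ hζ hM hv hw)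
      (tgFullRes_tgNuE O π hπ hζ hM hv hw)]
    show _ = tgNu k M (tgZetaBar O π hζ.pow_eq_one) (tgAct M γ⁻¹ v) (tgAct M γ⁻¹ w)
    rw [← tgFullRes_tgNuE O π hπ hζ hM (tgAct_ne_zero M γ⁻¹ hv) (tgAct_ne_zero M γ⁻¹ hw)]
    congr 1
    exact Subtype.ext (Gal.ρ_nu γ hv hw)
  ρ_jset := fun γ z hz => by
    obtain ⟨a', d', b', h, hb, e⟩ := hz
    rw [coe_tgRhoBar_of_res O π hπ hζ hM Gal γ z (tgJcE_mem O π hπ hζ hM h hb)
      ((tgFullRes_tgJcE O π hπ hζ hM h hb).trans e.symm)]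
    exact tgFullRes_mem_tgJSet O π hπ hζ hM
      (Gal.ρ_jset γ ⟨_, tgJc_mem_tgFull L M ζ h hb⟩ ⟨a', d', b', h, hb, rfl⟩)
  ρ_J := fun γ => by
    apply Subtype.ext
    rw [coe_tgRhoBar_of_res O π hπ hζ hM Gal γ _ (tgJ_mem_tgFullV O π hπ hζ hM)
      (tgFullRes_tgJ O π hπ hζ hM)]
    rw [coe_tgJ, ← tgFullRes_tgJ O π hπ hζ hM]
    congr 1
    exact Subtype.ext (Gal.ρ_J γ)
  ρ_T := fun z => by
    obtain ⟨x, hx, hz⟩ := tg_exists_res_eq O π hπ hζ hM z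
    rw [coe_tgRhoBar_of_res O π hπ hζ hM Gal _ z hx hz, tgFullRes_eq, ← hz, tgFullRes_eq]
    show taRhoFun O π ((Gal.ρ ModularGroup.T⁻¹ x : ↥(tgFull L M ζ)) : LaurentSeries L) = _
    rw [Gal.ρ_T]
    exact taRhoFun_lsTwist O π hζ hx
  ρ_jd := fun γ hγ {d} _ hd => by
    apply Subtype.ext
    rw [coe_tgRhoBar_of_res O π hπ hζ hM Gal γ _ (tgJd_mem_tgFullV O π hπ hζ hM hd)
      (tgFullRes_tgJd O π hπ hζ hM hd)]
    rw [coe_tgJd, ← tgFullRes_tgJd O π hπ hζ hM hd]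
    congr 1
    exact Subtype.ext (Gal.ρ_jd γ hγ hd)
  stab_jM := fun γ h => by
    apply Gal.stab_jM
    have h0 := Gal.ρ_jset γ _ (tgJd_mem_tgJSet L ζ)
    obtain ⟨a', d', b', hdiv, hb, e⟩ := h0
    have hmem : Gal.ρ γ (tgJd L M ζ (dvd_refl M)) ∈ tgFullV O π hπ hζ hM :=
      tg_ρ_mem O π hπ hζ hM Gal γ (tgJd_mem_tgFullV O π hπ hζ hM (dvd_refl M))
    have h1 : tgFullRes O π hπ hζ hM ⟨_, hmem⟩ =
        tgJc k (tgZetaBar O π hζ.pow_eq_one) (M / d' * b') (M / d' * a') := by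
      rw [tgFullRes_of_eq_taInc O π hπ hζ hM (e.trans (tgJc_eq_taInc O hζ _ _)),
        taRed_tgJc O π hζ]
    have h2 := coe_tgRhoBar_of_res O π hπ hζ hM Gal γ
      (tgJd k M (tgZetaBar O π hζ.pow_eq_one) (dvd_refl M))
      (tgJd_mem_tgFullV O π hπ hζ hM (dvd_refl M)) (tgFullRes_tgJd O π hπ hζ hM (dvd_refl M))
    rw [h, h1, coe_tgJd] at h2
    obtain ⟨hd1, ha, hb0⟩ := tg_jset_eq_jM k _ M hdiv hb h2.symm
    apply Subtype.ext
    rw [e, hd1, ha, hb0, coe_tgJd]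
    haveI : NeZero (M * M) := ⟨mul_ne_zero (NeZero.ne M) (NeZero.ne M)⟩
    rw [Nat.div_one, mul_zero, tgJc_zero_eq]
  ρ_Gamma := fun γ hγ => tgRhoBar_eq_one_of O π hπ hζ hM Gal γ (Gal.ρ_Gamma γ hγ)
  ρ_neg_one := tgRhoBar_eq_one_of O π hπ hζ hM Gal (-1) Gal.ρ_neg_one

theorem tgPreBar_ρ : (tgPreBar O π hπ hζ hM Gal).ρ = tgRhoBar O π hπ hζ hM Gal := rfl

end Fermat.Agent.T1G
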