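/-
T1G (helper6): **the reduced Galois package** `tgGalBar : TgGalois k M ζ̄`.  The fixed field of the
reduced action is `k(j̄)` by the degree count
`[Ē : k(j̄)] ≤ [E : L(j)] = |G| = |Ḡ| = [Ē : Ē^Ḡ]`  (fundamental inequality + Artin + the kernels
of both actions are `±Γ(M)`).  Moreover every residue of a Gauss-integral element of the full level
field of `L` lies in the full level field of `k`.
-/
import Fermat.Agent.Lib.T1G.Igusa.ReducePre
import Fermat.Agent.Lib.T1G.GoodRed.ResDeg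
import Fermat.Agent.Lib.T1G.Model.GaloisGen

set_option autoImplicit false
set_option linter.unusedSectionVars false
set_option linter.style.haveILetI false
set_option synthInstance.maxHeartbeats 400000

open HahnSeries ModularCurve Fermat.Agent.T1 Fermat.Agent.Igusa Polynomial Matrix MatrixGroups
  CongruenceSubgroup IntermediateField

noncomputable section

namespace Fermat.Agent.T1G

/-! ### Degree of the full level field over `K(j)` -/

section Generic

variable {K : Type*} [Field K] {M : ℕ} [NeZero M] {ζ : Kˣ} (G : TgGalois K M ζ)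

theorem tg_mem_adjoin_tgJ_iff (x : ↥(tgFull K M ζ)) :
    x ∈ K⟮tgJ K M ζ⟯ ↔ ∀ g ∈ G.ρ.range, g x = x := by
  rw [← G.fixedField_range, IntermediateField.mem_fixedField_iff]

include G in
theorem tg_finiteDimensional_full : FiniteDimensional ↥(K⟮tgJ K M ζ⟯) ↥(tgFull K M ζ) := by
  haveI := G.finite_range
  exact tgn_finiteDimensional G.ρ.range _ (tg_mem_adjoin_tgJ_iff G)

theorem tg_finrank_full :
    Module.finrank ↥(K⟮tgJ K M ζ⟯) ↥(tgFull K M ζ) = Nat.card ↥G.ρ.range := by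
  haveI := G.finite_range
  exact tgn_finrank_eq_card G.ρ.range _ (tg_mem_adjoin_tgJ_iff G)

end Generic

variable {L : Type*} [Field L] [Algebra ℚ L] (O : ValuationSubring L)
  {k : Type*} [Field k] (π : ↥O →+* k)
  [IsDiscreteValuationRing ↥O] (hπ : Function.Surjective π)
  {M : ℕ} [NeZero M] {ζ : Lˣ} (hζ : IsPrimitiveRoot ζ M) (hM : (M : k) ≠ 0)
  (Gal : TgGalois L M ζ)

/-! ### The fundamental inequality for the full level field -/

/-- lifts of a family of `tgFull k M ζ̄` which is linearly independent over `k(j̄)` form an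
independent family of the chart -/
theorem tg_indep_of_bar {ϖ : ↥O} (hϖ : Irreducible ϖ) {n : ℕ}
    (z : Fin n → ↥(tgFull k M (tgZetaBar O π hζ.pow_eq_one)))
    (hz : LinearIndependent ↥(k⟮tgJ k M (tgZetaBar O π hζ.pow_eq_one)⟯) z)
    (b : Fin n → ↥(tgFullV O π hπ hζ hM))
    (hb : ∀ i, tgFullRes O π hπ hζ hM (b i) = (z i : LaurentSeries k)) :
    (tgFullChart O π hπ hζ hM hϖ).core.Indep b := by
  apply tg_indep_of_linearIndependent (tgFullChart O π hπ hζ hM hϖ) b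
  have h1 := tg_linearIndependent_coe (tgFull k M (tgZetaBar O π hζ.pow_eq_one))
    (tgJ k M (tgZetaBar O π hζ.pow_eq_one)) z hz
  have hxb : (tgFullChart O π hπ hζ hM hϖ).xb =
      ((tgJ k M (tgZetaBar O π hζ.pow_eq_one) :
        ↥(tgFull k M (tgZetaBar O π hζ.pow_eq_one))) : LaurentSeries k) :=
    tgFullChart_xb O π hπ hζ hM hϖ
  have hfun : (fun i => (tgFullAbs O π hπ hζ hM).ρ (b i)) = fun i => (z i : LaurentSeries k) :=
    funext fun i => hb i
  rw [hxb, hfun]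
  exact h1

include hπ hM Gal in
theorem tg_card_le_of_linearIndependent_bar {n : ℕ}
    (z : Fin n → ↥(tgFull k M (tgZetaBar O π hζ.pow_eq_one)))
    (hz : LinearIndependent ↥(k⟮tgJ k M (tgZetaBar O π hζ.pow_eq_one)⟯) z) :
    n ≤ Nat.card ↥Gal.ρ.range := by
  obtain ⟨ϖ, hϖ⟩ := IsDiscreteValuationRing.exists_irreducible ↥O
  choose x hx hxz using fun i => tg_exists_res_eq O π hπ hζ hM (z i)
  have hb := tg_indep_of_bar O π hπ hζ hM hϖ z hz (fun i => ⟨x i, hx i⟩) hxz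
  haveI : FiniteDimensional ↥(L⟮(tgFullChart O π hπ hζ hM hϖ).x⟯) ↥(tgFull L M ζ) :=
    tg_finiteDimensional_full Gal
  have h1 := (tgFullChart O π hπ hζ hM hϖ).le_finrank hb
  have h2 : Module.finrank ↥(L⟮(tgFullChart O π hπ hζ hM hϖ).x⟯) ↥(tgFull L M ζ) =
      Nat.card ↥Gal.ρ.range := tg_finrank_full Gal
  rw [h2] at h1
  exact h1

include hπ hM Gal in
/-- `tgFull k M ζ̄` is finite over `k(j̄)` of degree at most `|G|` -/
theorem tg_bar_finite_and_finrank_le :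
    FiniteDimensional ↥(k⟮tgJ k M (tgZetaBar O π hζ.pow_eq_one)⟯)
        ↥(tgFull k M (tgZetaBar O π hζ.pow_eq_one)) ∧
      Module.finrank ↥(k⟮tgJ k M (tgZetaBar O π hζ.pow_eq_one)⟯)
        ↥(tgFull k M (tgZetaBar O π hζ.pow_eq_one)) ≤ Nat.card ↥Gal.ρ.range := by
  have hrank : Module.rank ↥(k⟮tgJ k M (tgZetaBar O π hζ.pow_eq_one)⟯)
      ↥(tgFull k M (tgZetaBar O π hζ.pow_eq_one)) ≤ (Nat.card ↥Gal.ρ.range : ℕ) := by
    apply rank_le
    intro s hs
    have h1 := tg_card_le_of_linearIndependent_bar O π hπ hζ hM Gal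
      (fun j : Fin s.card => ((s.equivFin.symm j : ↥s) :
        ↥(tgFull k M (tgZetaBar O π hζ.pow_eq_one))))
      (hs.comp _ s.equivFin.symm.injective)
    exact h1
  refine ⟨?_, Module.finrank_le_of_rank_le hrank⟩
  rw [FiniteDimensional, ← Module.rank_lt_aleph0_iff]
  exact lt_of_le_of_lt hrank Cardinal.natCast_lt_aleph0

/-! ### The fixed field of the reduced action -/

include hM in
theorem tg_bar_fixed (h3 : 3 ≤ M) (z : ↥(tgFull k M (tgZetaBar O π hζ.pow_eq_one)))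
    (hz : ∀ γ : SL(2, ℤ), tgRhoBar O π hπ hζ hM Gal γ z = z) :
    z ∈ k⟮tgJ k M (tgZetaBar O π hζ.pow_eq_one)⟯ := by
  set P := tgPreBar O π hπ hζ hM Gal with hP
  set Φ : IntermediateField k ↥(tgFull k M (tgZetaBar O π hζ.pow_eq_one)) :=
    IntermediateField.fixedField P.ρ.range with hΦ
  have hle : k⟮tgJ k M (tgZetaBar O π hζ.pow_eq_one)⟯ ≤ Φ := by
    rw [IntermediateField.adjoin_le_iff]
    rintro _ rfl ⟨g, γ, rfl⟩
    exact P.ρ_J γ
  obtain ⟨hfd, hfin⟩ := tg_bar_finite_and_finrank_le O π hπ hζ hM Gal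
  haveI := hfd
  have h1 : Module.finrank ↥Φ ↥(tgFull k M (tgZetaBar O π hζ.pow_eq_one)) =
      Nat.card ↥P.ρ.range :=
    tgn_finrank_eq_card P.ρ.range Φ (fun x => IntermediateField.mem_fixedField_iff _ x)
  have h2 : Nat.card ↥P.ρ.range = Nat.card ↥Gal.ρ.range := P.card_range_eq Gal.toPre h3
  have h3 : k⟮tgJ k M (tgZetaBar O π hζ.pow_eq_one)⟯ = Φ :=
    IntermediateField.eq_of_le_of_finrank_le' hle (by rw [h1, h2]; exact hfin)
  rw [h3, hΦ, IntermediateField.mem_fixedField_iff]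
  rintro g ⟨γ, rfl⟩
  exact hz γ

/-- **the reduced Galois package** -/
def tgGalBar (h3 : 3 ≤ M) : TgGalois k M (tgZetaBar O π hζ.pow_eq_one) :=
  (tgPreBar O π hπ hζ hM Gal).toGalois (tg_bar_fixed O π hπ hζ hM Gal h3)

theorem tgGalBar_ρ (h3 : 3 ≤ M) :
    (tgGalBar O π hπ hζ hM Gal h3).ρ = tgRhoBar O π hπ hζ hM Gal := rfl

/-- **`ρ̄ γ (res x) = res (ρ γ x)`** -/
theorem coe_tgGalBar_ρ_of_res (h3 : 3 ≤ M) (γ : SL(2, ℤ))
    (z : ↥(tgFull k M (tgZetaBar O π hζ.pow_eq_one)))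
    {x : ↥(tgFull L M ζ)} (hx : x ∈ tgFullV O π hπ hζ hM)
    (hz : tgFullRes O π hπ hζ hM ⟨x, hx⟩ = (z : LaurentSeries k)) :
    (((tgGalBar O π hπ hζ hM Gal h3).ρ γ z : ↥(tgFull k M (tgZetaBar O π hζ.pow_eq_one))) :
      LaurentSeries k) =
      tgFullRes O π hπ hζ hM ⟨Gal.ρ γ x, tg_ρ_mem O π hπ hζ hM Gal γ hx⟩ :=
  coe_tgRhoBar_of_res O π hπ hζ hM Gal γ z hx hz

/-! ### The residue field of the full level field -/

include hM Gal in
/-- **every residue lies in the full level field of `k`** -/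
theorem tgFullRes_mem_tgFull_bar (h3 : 3 ≤ M) (f : ↥(tgFullV O π hπ hζ hM)) :
    tgFullRes O π hπ hζ hM f ∈ tgFull k M (tgZetaBar O π hζ.pow_eq_one) := by
  obtain ⟨ϖ, hϖ⟩ := IsDiscreteValuationRing.exists_irreducible ↥O
  obtain ⟨hfd, hfin⟩ := tg_bar_finite_and_finrank_le O π hπ hζ hM Gal
  haveI := hfd
  set n := Module.finrank ↥(k⟮tgJ k M (tgZetaBar O π hζ.pow_eq_one)⟯)
    ↥(tgFull k M (tgZetaBar O π hζ.pow_eq_one)) with hn
  set B := Module.finBasis ↥(k⟮tgJ k M (tgZetaBar O π hζ.pow_eq_one)⟯)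
    ↥(tgFull k M (tgZetaBar O π hζ.pow_eq_one)) with hB
  choose x hx hxz using fun i => tg_exists_res_eq O π hπ hζ hM (B i)
  have hb := tg_indep_of_bar O π hπ hζ hM hϖ (fun i => B i) B.linearIndependent
    (fun i => ⟨x i, hx i⟩) hxz
  haveI : FiniteDimensional ↥(L⟮(tgFullChart O π hπ hζ hM hϖ).x⟯) ↥(tgFull L M ζ) :=
    tg_finiteDimensional_full Gal
  -- `n = |Ḡ| = |G| = [E : L(j)]`
  have hGal := tgGalBar O π hπ hζ hM Gal h3
  have e1 : n = Nat.card ↥(tgGalBar O π hπ hζ hM Gal h3).ρ.range :=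
    tg_finrank_full (tgGalBar O π hπ hζ hM Gal h3)
  have e2 : Nat.card ↥(tgGalBar O π hπ hζ hM Gal h3).ρ.range = Nat.card ↥Gal.ρ.range :=
    (tgPreBar O π hπ hζ hM Gal).card_range_eq Gal.toPre h3
  have e3 : Module.finrank ↥(L⟮(tgFullChart O π hπ hζ hM hϖ).x⟯) ↥(tgFull L M ζ) ≤ n := by
    rw [e1, e2]
    exact (tg_finrank_full Gal).le
  refine (tgFullChart O π hπ hζ hM hϖ).ρ_mem_of_forall_mem hb e3
    (tgFull k M (tgZetaBar O π hζ.pow_eq_one)) ?_ ?_ f
  · rw [tgFullChart_xb]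
    exact (tgJ k M (tgZetaBar O π hζ.pow_eq_one)).2
  · intro i
    show tgFullRes O π hπ hζ hM ⟨x i, hx i⟩ ∈ _
    rw [hxz i]
    exact (B i).2

end Fermat.Agent.T1G
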